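/-
Program C (S55), package C5 (designer helper88), leaf A4 = DENSE (helper10):
a number field `K` is dense in its semi-local algebra `K ⊗ ℚ_q` (weak approximation above `q`),
in the embedding model of `Fermat/Agent/S55/H88/SemiLocalDefs.lean`.

Proof: every `f ∈ semiLocal q K` is `τ ↦ P(τ θ)` for ONE polynomial `P ∈ ℚ_q[X]` (`θ` a primitive
element; Lagrange interpolation + Galois descent of the coefficients), and `ℚ` is dense in `ℚ_q`.
-/
import Fermat.Agent.S55.H88.SemiLocalDefs

set_option autoImplicit false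

noncomputable section

namespace Fermat.Agent.S55.H10

open Fermat.Agent.S55.H88 Polynomial
open scoped IntermediateField

variable (q : ℕ) [Fact q.Prime] (K : Type*) [Field K] [NumberField K]

/-- The embeddings of a number field into `PadicAlgCl q` are finite in number. -/
theorem finite_ringHom_padicAlgCl : Finite (K →+* PadicAlgCl q) :=
  Finite.of_equiv (K →ₐ[ℚ] PadicAlgCl q) (RingHom.equivRatAlgHom K (PadicAlgCl q)).symm

variable {K} in
/-- Embeddings are determined by their value at a primitive element. -/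
theorem ringHom_injective_of_primitive {θ : K} (hθ : ℚ⟮θ⟯ = ⊤) :
    Function.Injective (fun τ : K →+* PadicAlgCl q => τ θ) := by
  intro τ τ' h
  let E : IntermediateField ℚ K := (RingHom.eqLocusField τ τ').toIntermediateField fun x => by
    show τ (algebraMap ℚ K x) = τ' (algebraMap ℚ K x)
    rw [eq_ratCast, map_ratCast, map_ratCast]
  have hE : ℚ⟮θ⟯ ≤ E := IntermediateField.adjoin_simple_le_iff.2 h
  rw [hθ] at hE
  exact RingHom.ext fun x => hE (IntermediateField.mem_top (x := x))

/-- Every element of the semi-local algebra is `τ ↦ P (τ θ)` for a single polynomial `P` with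
coefficients in `ℚ_q` (so `K ⊗ ℚ_q = ℚ_q[X]/(minpoly θ)`). -/
theorem exists_poly_of_semiLocal (f : semiLocal q K) :
    ∃ (n : ℕ) (c : ℕ → ℚ_[q]) (θ : K), ∀ τ : K →+* PadicAlgCl q,
      (f : (K →+* PadicAlgCl q) → PadicAlgCl q) τ =
        ∑ i ∈ Finset.range n, algebraMap ℚ_[q] (PadicAlgCl q) (c i) * (τ θ) ^ i := by
  classical
  obtain ⟨θ, hθ⟩ := Field.exists_primitive_element ℚ K
  have : Finite (K →+* PadicAlgCl q) := finite_ringHom_padicAlgCl q K
  let _ : Fintype (K →+* PadicAlgCl q) := Fintype.ofFinite _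
  have hinj := ringHom_injective_of_primitive q hθ
  set P : (PadicAlgCl q)[X] := Lagrange.interpolate Finset.univ
    (fun τ : K →+* PadicAlgCl q => τ θ)
    (fun τ => (f : (K →+* PadicAlgCl q) → PadicAlgCl q) τ) with hP
  have hPeval : ∀ τ : K →+* PadicAlgCl q,
      P.eval (τ θ) = (f : (K →+* PadicAlgCl q) → PadicAlgCl q) τ := fun τ =>
    Lagrange.eval_interpolate_at_node _ hinj.injOn (Finset.mem_univ τ)
  have hPinv : ∀ g : PadicAlgCl q ≃ₐ[ℚ_[q]] PadicAlgCl q,
      P.map (g : PadicAlgCl q →+* PadicAlgCl q) = P := by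
    intro g
    refine Lagrange.eq_interpolate_of_eval_eq _ hinj.injOn ?_ ?_
    · rw [Polynomial.degree_map]
      exact Lagrange.degree_interpolate_lt _ hinj.injOn
    · intro τ _
      set τ' : K →+* PadicAlgCl q :=
        ((g.symm : PadicAlgCl q ≃ₐ[ℚ_[q]] PadicAlgCl q) : PadicAlgCl q →+* PadicAlgCl q).comp τ
        with hτ'
      have hτ : τ = (g : PadicAlgCl q →+* PadicAlgCl q).comp τ' := by
        ext x
        simp [hτ']
      have h1 : τ θ = (g : PadicAlgCl q →+* PadicAlgCl q) (τ' θ) := by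
        conv_lhs => rw [hτ]
        rfl
      show eval (τ θ) (P.map (g : PadicAlgCl q →+* PadicAlgCl q)) = _
      rw [h1, Polynomial.eval_map, Polynomial.eval₂_at_apply, hPeval]
      have h2 := f.2 g τ'
      rw [← hτ] at h2
      exact h2.symm
  have hcoeff : ∀ i, P.coeff i ∈ Set.range (algebraMap ℚ_[q] (PadicAlgCl q)) := by
    intro i
    rw [InfiniteGalois.mem_range_algebraMap_iff_fixed]
    intro g
    have := congrArg (fun p : (PadicAlgCl q)[X] => p.coeff i) (hPinv g)
    simpa [Polynomial.coeff_map] using this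
  choose c hc using hcoeff
  refine ⟨P.natDegree + 1, c, θ, fun τ => ?_⟩
  rw [← hPeval τ, Polynomial.eval_eq_sum_range' (Nat.lt_succ_self _)]
  refine Finset.sum_congr rfl fun i _ => ?_
  rw [hc]

/-- **C5 leaf A4 (DENSE)**: weak approximation above `q`, in the embedding model.
This is `Fermat.Agent.S55.H88.SemiLocalDenseStatement q K` unfolded. -/
theorem semiLocalDense :
    ∀ (f : semiLocal q K) (ε : ℝ), 0 < ε → ∃ x : K, ∀ τ : K →+* PadicAlgCl q,
      ‖(f : (K →+* PadicAlgCl q) → PadicAlgCl q) τ - τ x‖ < ε := by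
  intro f ε hε
  classical
  obtain ⟨n, c, θ, hf⟩ := exists_poly_of_semiLocal q K f
  have : Finite (K →+* PadicAlgCl q) := finite_ringHom_padicAlgCl q K
  let _ : Fintype (K →+* PadicAlgCl q) := Fintype.ofFinite _
  set B : ℝ := ∑ τ : K →+* PadicAlgCl q, ∑ i ∈ Finset.range n, ‖τ θ‖ ^ i + 1 with hB
  have hBpos : 0 < B := by positivity
  have hδ : 0 < ε / B := div_pos hε hBpos
  choose r hr using fun i => Padic.rat_dense q (c i) hδ
  refine ⟨∑ i ∈ Finset.range n, algebraMap ℚ K (r i) * θ ^ i, fun τ => ?_⟩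
  rw [hf τ, map_sum, ← Finset.sum_sub_distrib]
  have hterm : ∀ i ∈ Finset.range n,
      algebraMap ℚ_[q] (PadicAlgCl q) (c i) * τ θ ^ i - τ (algebraMap ℚ K (r i) * θ ^ i) =
        algebraMap ℚ_[q] (PadicAlgCl q) (c i - (r i : ℚ_[q])) * τ θ ^ i := by
    intro i _
    rw [map_mul, map_pow, map_sub, sub_mul, eq_ratCast, map_ratCast, map_ratCast]
  rw [Finset.sum_congr rfl hterm]
  calc ‖∑ i ∈ Finset.range n, algebraMap ℚ_[q] (PadicAlgCl q) (c i - (r i : ℚ_[q])) * τ θ ^ i‖
      ≤ ∑ i ∈ Finset.range n,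
          ‖algebraMap ℚ_[q] (PadicAlgCl q) (c i - (r i : ℚ_[q])) * τ θ ^ i‖ := norm_sum_le _ _
    _ ≤ ∑ i ∈ Finset.range n, (ε / B) * ‖τ θ‖ ^ i := by
        refine Finset.sum_le_sum fun i _ => ?_
        rw [norm_mul, norm_pow, norm_algebraMap']
        exact mul_le_mul_of_nonneg_right (hr i).le (by positivity)
    _ = (ε / B) * ∑ i ∈ Finset.range n, ‖τ θ‖ ^ i := by rw [Finset.mul_sum]
    _ ≤ (ε / B) * (B - 1) := by
        refine mul_le_mul_of_nonneg_left ?_ hδ.le
        rw [hB, add_sub_cancel_right]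
        exact Finset.single_le_sum (f := fun τ : K →+* PadicAlgCl q =>
          ∑ i ∈ Finset.range n, ‖τ θ‖ ^ i) (fun τ _ => by positivity) (Finset.mem_univ τ)
    _ < (ε / B) * B := by
        apply mul_lt_mul_of_pos_left _ hδ
        linarith
    _ = ε := div_mul_cancel₀ ε hBpos.ne'

end Fermat.Agent.S55.H10
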