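/-
Program C (S55), package C3, generic cyclic classes (helper10).
Leaves CY1 (`LeafCycCocycle`) and CY4 (`LeafCycAdd`) of `Fermat/Agent/S55/H66/CycDefs.lean`,
together with the basic calculus of `cycIdx`.  Mathlib + `CycDefs` only.
-/
import Fermat.Agent.S55.H66.CycDefs

set_option autoImplicit false

noncomputable section

namespace Fermat.Agent.S55.H10

open CategoryTheory groupCohomology Rep Fermat.Agent.S55.H66

section Idx

variable {G : Type} [Group G]

/-- Every element of a finite group generated by `σ` is a natural power of `σ`. -/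
theorem exists_pow_eq [Finite G] {σ : G} (hσ : ∀ g : G, g ∈ Subgroup.zpowers σ) (g : G) :
    ∃ i : ℕ, σ ^ i = g := by
  have h := (mem_powers_iff_mem_zpowers (x := σ) (y := g)).2 (hσ g)
  obtain ⟨i, (hi : σ ^ i = g)⟩ := h
  exact ⟨i, hi⟩

theorem cycIdx_spec [Finite G] {σ : G} (hσ : ∀ g : G, g ∈ Subgroup.zpowers σ) (g : G) :
    σ ^ cycIdx σ g = g := by
  classical
  have h := exists_pow_eq hσ g
  unfold cycIdx
  rw [dif_pos h]
  exact Nat.find_spec h

theorem cycIdx_lt [Finite G] {σ : G} (hσ : ∀ g : G, g ∈ Subgroup.zpowers σ) (g : G) :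
    cycIdx σ g < orderOf σ := by
  classical
  have h := exists_pow_eq hσ g
  obtain ⟨i, hi⟩ := h
  have h2 : σ ^ (i % orderOf σ) = g := by rw [pow_mod_orderOf, hi]
  unfold cycIdx
  rw [dif_pos ⟨i, hi⟩]
  exact lt_of_le_of_lt (Nat.find_min' _ h2) (Nat.mod_lt _ (orderOf_pos σ))

theorem cycIdx_pow [Finite G] {σ : G} (hσ : ∀ g : G, g ∈ Subgroup.zpowers σ) (i : ℕ) :
    cycIdx σ (σ ^ i) = i % orderOf σ := by
  have h1 := cycIdx_spec hσ (σ ^ i)
  have h2 := cycIdx_lt hσ (σ ^ i)
  have h3 : cycIdx σ (σ ^ i) ≡ i [MOD orderOf σ] := pow_eq_pow_iff_modEq.1 h1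
  rw [← Nat.mod_eq_of_lt h2]
  exact h3

theorem cycIdx_mul [Finite G] {σ : G} (hσ : ∀ g : G, g ∈ Subgroup.zpowers σ) (g h : G) :
    cycIdx σ (g * h) = (cycIdx σ g + cycIdx σ h) % orderOf σ := by
  rw [← cycIdx_pow hσ, pow_add, cycIdx_spec hσ, cycIdx_spec hσ]

/-- The carry identity: both sides count `⌊(i + j + l) / n⌋`. -/
theorem carry_identity {n i j l : ℕ} (hi : i < n) (hj : j < n) (hl : l < n) :
    (if n ≤ (i + j) % n + l then 1 else 0) + (if n ≤ i + j then 1 else 0) =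
      (if n ≤ j + l then (1 : ℕ) else 0) + (if n ≤ i + (j + l) % n then 1 else 0) := by
  have e1 : (i + j) % n = if n ≤ i + j then i + j - n else i + j := by
    split_ifs with h
    · rw [Nat.mod_eq_sub_mod h, Nat.mod_eq_of_lt (by omega)]
    · exact Nat.mod_eq_of_lt (by omega)
  have e2 : (j + l) % n = if n ≤ j + l then j + l - n else j + l := by
    split_ifs with h
    · rw [Nat.mod_eq_sub_mod h, Nat.mod_eq_of_lt (by omega)]
    · exact Nat.mod_eq_of_lt (by omega)
  rw [e1, e2]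
  split_ifs <;> omega

end Idx

section Cyc

variable {k G : Type} [CommRing k] [Group G] (A : Rep.{0, 0, 0} k G)

/-- `cycFun` as a natural multiple. -/
theorem cycFun_apply (σ : G) (a : A) (g h : G) :
    cycFun A σ a (g, h) = (if orderOf σ ≤ cycIdx σ g + cycIdx σ h then 1 else 0 : ℕ) • a := by
  unfold cycFun
  split_ifs <;> simp

theorem cycFun_add (σ : G) (a b : A) :
    cycFun A σ (a + b) = cycFun A σ a + cycFun A σ b := by
  funext x
  simp only [cycFun, Pi.add_apply]
  split_ifs <;> simp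

/-- CY1, in usable form. -/
theorem cycFun_mem_cocycles₂ [Finite G] {σ : G} (hσ : ∀ g : G, g ∈ Subgroup.zpowers σ)
    {a : A} (ha : ∀ g : G, A.ρ g a = a) : cycFun A σ a ∈ cocycles₂ A := by
  rw [mem_cocycles₂_iff]
  intro g h j
  rw [cycFun_apply, cycFun_apply, cycFun_apply, cycFun_apply, map_nsmul, ha, ← add_smul,
    ← add_smul, cycIdx_mul hσ g h, cycIdx_mul hσ h j,
    carry_identity (cycIdx_lt hσ g) (cycIdx_lt hσ h) (cycIdx_lt hσ j)]

theorem cycClass_eq [Finite G] {σ : G} (hσ : ∀ g : G, g ∈ Subgroup.zpowers σ)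
    {a : A} (ha : ∀ g : G, A.ρ g a = a) :
    cycClass A σ a = (H2π A).hom ⟨cycFun A σ a, cycFun_mem_cocycles₂ A hσ ha⟩ := by
  unfold cycClass
  rw [dif_pos (cycFun_mem_cocycles₂ A hσ ha)]

/-- CY1. -/
theorem leafCycCocycle : LeafCycCocycle := by
  intro k G _ _ _ A σ hσ a ha
  exact cycFun_mem_cocycles₂ A hσ ha

/-- CY4. -/
theorem leafCycAdd : LeafCycAdd := by
  intro k G _ _ _ A σ hσ a b ha hb
  have hab : ∀ g : G, A.ρ g (a + b) = a + b := fun g => by rw [map_add, ha, hb]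
  rw [cycClass_eq A hσ ha, cycClass_eq A hσ hb, cycClass_eq A hσ hab, ← map_add]
  congr 1
  apply Subtype.ext
  exact cycFun_add A σ a b

end Cyc

end Fermat.Agent.S55.H10
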