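/-
Program C (S55), package C3, generic cyclic classes (helper10).
Leaves CY2 (`LeafCycSurj`) and CY3 (`LeafCycZero`) of `Fermat/Agent/S55/H66/CycDefs.lean`.
Mathlib + `CycDefs` only.
-/
import Fermat.Agent.S55.H10.CycBasic

set_option autoImplicit false

noncomputable section

namespace Fermat.Agent.S55.H10

open CategoryTheory groupCohomology Rep Fermat.Agent.S55.H66

section Sums

variable {G : Type} [Group G]

/-- Summing over a finite cyclic group along the powers of a generator. -/
theorem sum_eq_sum_range_pow [Fintype G] {M : Type} [AddCommMonoid M] {σ : G}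
    (hσ : ∀ g : G, g ∈ Subgroup.zpowers σ) (f : G → M) :
    ∑ g : G, f g = ∑ i ∈ Finset.range (orderOf σ), f (σ ^ i) := by
  classical
  rw [← IsCyclic.image_range_orderOf hσ, Finset.sum_image]
  intro i hi j hj hij
  exact pow_injOn_Iio_orderOf (by simpa using hi) (by simpa using hj) hij

/-- A sequence with `X (m + n) = X m + a` satisfies the carry formula. -/
theorem carry_of_periodic {M : Type} [AddCommMonoid M] {X : ℕ → M} {n : ℕ} {a : M}
    (hX : ∀ m, X (m + n) = X m + a) {i j : ℕ} (hi : i < n) (hj : j < n) :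
    X (i + j) = X ((i + j) % n) + (if n ≤ i + j then 1 else 0 : ℕ) • a := by
  split_ifs with h
  · rw [Nat.mod_eq_sub_mod h, Nat.mod_eq_of_lt (by omega), one_smul, ← hX]
    congr 1
    omega
  · rw [Nat.mod_eq_of_lt (by omega), zero_smul, add_zero]

end Sums

section Surj

variable {k G : Type} [CommRing k] [Group G] (A : Rep.{0, 0, 0} k G)

/-- Partial sums of a 2-cochain along the powers of `σ`. -/
def cycT (c : G × G → A) (σ : G) (i : ℕ) : A := ∑ l ∈ Finset.range i, c (σ ^ l, σ)

theorem cycT_succ (c : G × G → A) (σ : G) (i : ℕ) :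
    cycT A c σ (i + 1) = cycT A c σ i + c (σ ^ i, σ) := by
  unfold cycT
  rw [Finset.sum_range_succ]

theorem cocycle_one_fst {c : G × G → A} (hc : c ∈ cocycles₂ A) (g : G) :
    c (1, g) = c (1, 1) := by
  have h := (mem_cocycles₂_iff c).1 hc 1 1 g
  simp only [mul_one, one_mul, map_one, Module.End.one_apply] at h
  exact (add_left_cancel h).symm

theorem cocycle_one_snd {c : G × G → A} (hc : c ∈ cocycles₂ A) (g : G) :
    c (g, 1) = A.ρ g (c (1, 1)) := by
  have h := (mem_cocycles₂_iff c).1 hc g 1 1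
  simp only [mul_one] at h
  exact add_right_cancel h

/-- The key identity: `c (σ^i, σ^j) + σ^i (T j - c(1,1)) + T i = T (i + j)`. -/
theorem cycT_key {c : G × G → A} (hc : c ∈ cocycles₂ A) (σ : G) (i j : ℕ) :
    c (σ ^ i, σ ^ j) + A.ρ (σ ^ i) (cycT A c σ j - c (1, 1)) + cycT A c σ i =
      cycT A c σ (i + j) := by
  induction j with
  | zero =>
    have h0 : cycT A c σ 0 = 0 := by simp [cycT]
    rw [pow_zero, cocycle_one_snd A hc, h0, zero_sub, map_neg, add_zero]
    abel
  | succ j ih =>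
    have h := (mem_cocycles₂_iff c).1 hc (σ ^ i) (σ ^ j) σ
    rw [← pow_add, ← pow_succ] at h
    rw [← add_assoc, cycT_succ, cycT_succ, ← ih]
    have h2 : c (σ ^ i, σ ^ (j + 1)) =
        c (σ ^ (i + j), σ) + c (σ ^ i, σ ^ j) - A.ρ (σ ^ i) (c (σ ^ j, σ)) := by
      rw [h]; abel
    rw [h2, map_sub, map_sub, map_add]
    abel

theorem cycT_orderOf_invariant {c : G × G → A} (hc : c ∈ cocycles₂ A) (σ : G) :
    A.ρ σ (cycT A c σ (orderOf σ)) = cycT A c σ (orderOf σ) := by
  have h := cycT_key A hc σ 1 (orderOf σ)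
  have h1 : cycT A c σ 1 = c (1, 1) := by
    rw [cycT]
    simp [cocycle_one_fst A hc]
  rw [h1, add_comm 1 (orderOf σ), cycT_succ, pow_orderOf_eq_one, cocycle_one_fst A hc σ,
    cocycle_one_snd A hc, pow_one, map_sub] at h
  have h3 : A.ρ σ (cycT A c σ (orderOf σ)) + c (1, 1) = cycT A c σ (orderOf σ) + c (1, 1) := by
    rw [← h]; abel
  exact add_right_cancel h3

theorem invariant_of_generator [Finite G] {σ : G} (hσ : ∀ g : G, g ∈ Subgroup.zpowers σ)
    {a : A} (ha : A.ρ σ a = a) (g : G) : A.ρ g a = a := by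
  obtain ⟨i, rfl⟩ := exists_pow_eq hσ g
  rw [map_pow, Module.End.pow_apply]
  exact Function.iterate_fixed ha i

theorem cycT_add_orderOf {c : G × G → A} (hc : c ∈ cocycles₂ A) (σ : G) (m : ℕ) :
    cycT A c σ (m + orderOf σ) = cycT A c σ m + cycT A c σ (orderOf σ) := by
  have h := cycT_key A hc σ (orderOf σ) m
  rw [pow_orderOf_eq_one, cocycle_one_fst A hc (σ ^ m), map_one, Module.End.one_apply] at h
  rw [add_comm m (orderOf σ), ← h]
  abel

/-- Any 2-cocycle of a finite cyclic group differs from the cyclic cocycle of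
`a = ∑_{l < n} c (σ^l, σ)` by an explicit coboundary. -/
theorem cocycle_add_d₁₂_eq_cycFun [Finite G] {σ : G} (hσ : ∀ g : G, g ∈ Subgroup.zpowers σ)
    {c : G × G → A} (hc : c ∈ cocycles₂ A) :
    c + (d₁₂ A).hom (fun g => cycT A c σ (cycIdx σ g) - c (1, 1)) =
      cycFun A σ (cycT A c σ (orderOf σ)) := by
  funext ⟨g, h⟩
  rw [Pi.add_apply, d₁₂_hom_apply, cycFun_apply]
  simp only
  have key := cycT_key A hc σ (cycIdx σ g) (cycIdx σ h)
  rw [cycIdx_spec hσ, cycIdx_spec hσ] at key
  have hper := carry_of_periodic (X := cycT A c σ) (cycT_add_orderOf A hc σ)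
    (cycIdx_lt hσ g) (cycIdx_lt hσ h)
  rw [cycIdx_mul hσ g h]
  rw [hper] at key
  rw [← eq_sub_iff_add_eq'] at key
  rw [key]
  abel

/-- CY2. -/
theorem leafCycSurj : LeafCycSurj := by
  intro k G _ _ _ A σ hσ x
  induction x using H2_induction_on with
  | h c =>
    have hc : (c : G × G → A) ∈ cocycles₂ A := c.2
    have ha : ∀ g : G, A.ρ g (cycT A c σ (orderOf σ)) = cycT A c σ (orderOf σ) :=
      invariant_of_generator A hσ (cycT_orderOf_invariant A hc σ)
    refine ⟨cycT A c σ (orderOf σ), ha, ?_⟩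
    rw [cycClass_eq A hσ ha]
    refine (H2π_eq_iff _ _).2 ?_
    refine ⟨fun g => cycT A c σ (cycIdx σ g) - c (1, 1), ?_⟩
    have h := cocycle_add_d₁₂_eq_cycFun A hσ hc
    funext x
    have hx := congrFun h x
    rw [Pi.add_apply] at hx
    change _ = cycFun A σ (cycT A c σ (orderOf σ)) x - c x
    rw [← hx]
    abel

end Surj

section Zero

variable {k G : Type} [CommRing k] [Group G] (A : Rep.{0, 0, 0} k G)

/-- Partial norms along the powers of `σ`. -/
def cycU (σ : G) (b : A) (i : ℕ) : A := ∑ l ∈ Finset.range i, A.ρ (σ ^ l) b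

theorem cycU_add (σ : G) (b : A) (i j : ℕ) :
    cycU A σ b (i + j) = cycU A σ b i + A.ρ (σ ^ i) (cycU A σ b j) := by
  unfold cycU
  rw [Finset.sum_range_add, map_sum]
  congr 1
  refine Finset.sum_congr rfl fun l _ => ?_
  rw [pow_add, map_mul, Module.End.mul_apply]

/-- The cyclic cocycle of a norm is an explicit coboundary. -/
theorem d₁₂_cycU_eq_cycFun [Fintype G] {σ : G} (hσ : ∀ g : G, g ∈ Subgroup.zpowers σ) (b : A) :
    (d₁₂ A).hom (fun g => cycU A σ b (cycIdx σ g)) = cycFun A σ (∑ g : G, A.ρ g b) := by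
  have hN : ∑ g : G, A.ρ g b = cycU A σ b (orderOf σ) := sum_eq_sum_range_pow hσ _
  have hinv : ∀ g : G, A.ρ g (∑ x : G, A.ρ x b) = ∑ x : G, A.ρ x b := by
    intro g
    rw [map_sum]
    refine Fintype.sum_bijective (fun x => g * x) (Group.mulLeft_bijective g) _ _ fun x => ?_
    rw [map_mul, Module.End.mul_apply]
  have hper : ∀ m, cycU A σ b (m + orderOf σ) = cycU A σ b m + ∑ g : G, A.ρ g b := by
    intro m
    rw [cycU_add, ← hN, hinv]
  funext ⟨g, h⟩
  rw [d₁₂_hom_apply, cycFun_apply]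
  simp only
  have key := cycU_add A σ b (cycIdx σ g) (cycIdx σ h)
  rw [cycIdx_spec hσ] at key
  rw [carry_of_periodic hper (cycIdx_lt hσ g) (cycIdx_lt hσ h)] at key
  rw [cycIdx_mul hσ g h]
  rw [← eq_sub_iff_add_eq'] at key
  rw [key]
  abel

/-- CY3. -/
theorem leafCycZero : LeafCycZero := by
  intro k G _ _ _ A σ hσ a ha
  rw [cycClass_eq A hσ ha]
  constructor
  · intro h0
    have h1 := (H2π_eq_zero_iff _).1 h0
    obtain ⟨f, hf⟩ := h1
    have hf' : ∀ g h : G, A.ρ g (f h) - f (g * h) + f g = cycFun A σ a (g, h) := by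
      intro g h
      have := congrFun hf (g, h)
      rw [d₁₂_hom_apply] at this
      exact this
    by_cases h1 : orderOf σ = 1
    · refine ⟨a, ?_⟩
      rw [sum_eq_sum_range_pow hσ, h1, Finset.sum_range_one, pow_zero, map_one,
        Module.End.one_apply]
    · refine ⟨f σ, ?_⟩
      rw [sum_eq_sum_range_pow hσ]
      have hn : 2 ≤ orderOf σ := by have := orderOf_pos σ; omega
      have hidx1 : cycIdx σ σ = 1 := by
        have := cycIdx_pow hσ 1
        rw [pow_one, Nat.mod_eq_of_lt (by omega)] at this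
        exact this
      have hterm : ∀ i ∈ Finset.range (orderOf σ), A.ρ (σ ^ i) (f σ) =
          (if orderOf σ ≤ i + 1 then 1 else 0 : ℕ) • a + (f (σ ^ (i + 1)) - f (σ ^ i)) := by
        intro i hi
        have hi' : i < orderOf σ := Finset.mem_range.1 hi
        have h2 := hf' (σ ^ i) σ
        rw [cycFun_apply, cycIdx_pow hσ, Nat.mod_eq_of_lt hi', hidx1, ← pow_succ] at h2
        rw [← h2]
        abel
      have htel : ∑ i ∈ Finset.range (orderOf σ), (f (σ ^ (i + 1)) - f (σ ^ i)) = 0 := by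
        have := Finset.sum_range_sub (fun i => f (σ ^ i)) (orderOf σ)
        simp only [pow_orderOf_eq_one, pow_zero, sub_self] at this
        exact this
      rw [Finset.sum_congr rfl hterm, Finset.sum_add_distrib, htel, add_zero]
      obtain ⟨m, hm⟩ : ∃ m, orderOf σ = m + 1 := ⟨orderOf σ - 1, by omega⟩
      rw [hm, Finset.sum_range_succ, if_pos le_rfl, one_smul, Finset.sum_eq_zero, zero_add]
      intro i hi
      have hi' : i < m := Finset.mem_range.1 hi
      rw [if_neg (by omega), zero_smul]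
  · rintro ⟨b, rfl⟩
    refine (H2π_eq_zero_iff _).2 ?_
    exact ⟨fun g => cycU A σ b (cycIdx σ g), d₁₂_cycU_eq_cycFun A hσ b⟩

end Zero

end Fermat.Agent.S55.H10
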