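/-
Program C (S55), packages C5/C8 (helper10): weak approximation at FINITELY MANY primes
simultaneously, in the embedding model of `Fermat/Agent/S55/H88/SemiLocalDefs.lean`:
given `f q ∈ semiLocal q K` for the primes `q` of a finite set `T`, there is ONE `x : K` that is
`ε`-close to `f q` at every embedding `K →+* PadicAlgCl q`, for all `q ∈ T` (input of C8-R3b).
Also: weak approximation in `ℚ` (`exists_rat_near`, `exists_rat_near_padic`).
-/
import Fermat.Agent.S55.H10.SemiLocalDense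

set_option autoImplicit false

noncomputable section

namespace Fermat.Agent.S55.H10

open Fermat.Agent.S55.H88 Polynomial
open scoped IntermediateField

/-- (Local instance; consumers need the same one-liner.) -/
local instance factPrimes (q : Nat.Primes) : Fact (q : ℕ).Prime := ⟨q.2⟩

/-! ### Weak approximation in `ℚ` -/

/-- Chinese remainder theorem for prime powers, in divisibility form. -/
theorem exists_crt_idempotents (T : Finset Nat.Primes) (M : ℕ) :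
    ∃ e : Nat.Primes → ℤ, ∀ q₀ ∈ T, ∀ q ∈ T,
      (((q : ℕ) : ℤ) ^ M) ∣ e q₀ - (if q = q₀ then 1 else 0) := by
  classical
  have hcop : Pairwise (Function.onFun IsCoprime fun q : T =>
      Ideal.span {(((q : Nat.Primes) : ℕ) : ℤ) ^ M}) := by
    intro q q' hne
    rw [Function.onFun, Ideal.isCoprime_span_singleton_iff]
    apply IsCoprime.pow
    rw [Nat.isCoprime_iff_coprime]
    exact (Nat.coprime_primes q.1.2 q'.1.2).2 fun h => hne (Subtype.ext (Subtype.ext h))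
  have hcrt : ∀ q₀ : T, ∃ e : ℤ, ∀ q : T,
      e - (if q = q₀ then 1 else 0) ∈ Ideal.span {(((q : Nat.Primes) : ℕ) : ℤ) ^ M} :=
    fun q₀ => Ideal.exists_forall_sub_mem_ideal hcop _
  choose e he using hcrt
  refine ⟨fun q₀ => if h : q₀ ∈ T then e ⟨q₀, h⟩ else 0, fun q₀ hq₀ q hq => ?_⟩
  simp only [dif_pos hq₀]
  have h := he ⟨q₀, hq₀⟩ ⟨q, hq⟩
  rw [Ideal.mem_span_singleton] at h
  have heq : ((⟨q, hq⟩ : T) = ⟨q₀, hq₀⟩) ↔ q = q₀ := by
    rw [Subtype.mk.injEq]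
  simp only [heq] at h
  exact h

/-- Weak approximation in `ℚ`, rational targets: one rational number is `δ`-close to `s q` in
`ℚ_q` for all `q` in a finite set of primes. -/
theorem exists_rat_near (T : Finset Nat.Primes) (s : Nat.Primes → ℚ) {δ : ℝ} (hδ : 0 < δ) :
    ∃ r : ℚ, ∀ q ∈ T, ‖((r : ℚ) : ℚ_[(q : ℕ)]) - ((s q : ℚ) : ℚ_[(q : ℕ)])‖ < δ := by
  classical
  set C : ℝ := ∑ q ∈ T, ∑ q' ∈ T, ‖((s q' : ℚ) : ℚ_[(q : ℕ)])‖ + 1 with hC
  have hCpos : 0 < C := by positivity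
  obtain ⟨M, hM⟩ := exists_pow_lt_of_lt_one (div_pos hδ hCpos) (by norm_num : (1 / 2 : ℝ) < 1)
  obtain ⟨e, he⟩ := exists_crt_idempotents T M
  refine ⟨∑ q₀ ∈ T, (e q₀ : ℚ) * s q₀, fun q hq => ?_⟩
  have h1 : ((∑ q₀ ∈ T, (e q₀ : ℚ) * s q₀ : ℚ) : ℚ_[(q : ℕ)]) - ((s q : ℚ) : ℚ_[(q : ℕ)]) =
      ∑ q₀ ∈ T, (((e q₀ - (if q = q₀ then 1 else 0) : ℤ)) : ℚ_[(q : ℕ)]) *
        ((s q₀ : ℚ) : ℚ_[(q : ℕ)]) := by
    have h2 : ∑ q₀ ∈ T, (((if q = q₀ then 1 else 0 : ℤ)) : ℚ_[(q : ℕ)]) *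
        ((s q₀ : ℚ) : ℚ_[(q : ℕ)]) = ((s q : ℚ) : ℚ_[(q : ℕ)]) := by
      rw [Finset.sum_eq_single q]
      · simp
      · intro b _ hb
        rw [if_neg (Ne.symm hb)]
        simp
      · intro h
        exact absurd hq h
    simp only [Int.cast_sub, sub_mul, Finset.sum_sub_distrib, h2]
    push_cast
    rfl
  rw [h1]
  have hq2 : (2 : ℝ) ≤ ((q : ℕ) : ℝ) := by exact_mod_cast q.2.two_le
  have hpow : ((q : ℕ) : ℝ) ^ (-(M : ℤ)) ≤ (1 / 2 : ℝ) ^ M := by
    rw [zpow_neg, zpow_natCast, one_div, inv_pow]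
    exact inv_anti₀ (by positivity) (pow_le_pow_left₀ (by norm_num) hq2 M)
  calc ‖∑ q₀ ∈ T, (((e q₀ - (if q = q₀ then 1 else 0) : ℤ)) : ℚ_[(q : ℕ)]) *
          ((s q₀ : ℚ) : ℚ_[(q : ℕ)])‖
      ≤ ∑ q₀ ∈ T, ‖(((e q₀ - (if q = q₀ then 1 else 0) : ℤ)) : ℚ_[(q : ℕ)]) *
          ((s q₀ : ℚ) : ℚ_[(q : ℕ)])‖ := norm_sum_le _ _
    _ ≤ ∑ q₀ ∈ T, (1 / 2 : ℝ) ^ M * ‖((s q₀ : ℚ) : ℚ_[(q : ℕ)])‖ := by
        refine Finset.sum_le_sum fun q₀ hq₀ => ?_
        rw [norm_mul]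
        refine mul_le_mul_of_nonneg_right (le_trans ?_ hpow) (norm_nonneg _)
        exact (Padic.norm_int_le_pow_iff_dvd _ _).2 (by exact_mod_cast he q₀ hq₀ q hq)
    _ = (1 / 2 : ℝ) ^ M * ∑ q₀ ∈ T, ‖((s q₀ : ℚ) : ℚ_[(q : ℕ)])‖ := by rw [Finset.mul_sum]
    _ ≤ (1 / 2 : ℝ) ^ M * (C - 1) := by
        refine mul_le_mul_of_nonneg_left ?_ (by positivity)
        rw [hC, add_sub_cancel_right]
        exact Finset.single_le_sum (f := fun q : Nat.Primes =>
          ∑ q' ∈ T, ‖((s q' : ℚ) : ℚ_[(q : ℕ)])‖)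
          (fun q _ => Finset.sum_nonneg fun _ _ => norm_nonneg _) hq
    _ ≤ (1 / 2 : ℝ) ^ M * C := by
        refine mul_le_mul_of_nonneg_left ?_ (by positivity)
        linarith
    _ < δ / C * C := mul_lt_mul_of_pos_right hM hCpos
    _ = δ := div_mul_cancel₀ δ hCpos.ne'

/-- Weak approximation in `ℚ`, `q`-adic targets. -/
theorem exists_rat_near_padic (T : Finset Nat.Primes) (a : ∀ q : Nat.Primes, ℚ_[(q : ℕ)])
    {δ : ℝ} (hδ : 0 < δ) :
    ∃ r : ℚ, ∀ q ∈ T, ‖a q - ((r : ℚ) : ℚ_[(q : ℕ)])‖ < δ := by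
  choose s hs using fun q : Nat.Primes => Padic.rat_dense (q : ℕ) (a q) (half_pos hδ)
  obtain ⟨r, hr⟩ := exists_rat_near T s (half_pos hδ)
  refine ⟨r, fun q hq => ?_⟩
  calc ‖a q - ((r : ℚ) : ℚ_[(q : ℕ)])‖
      = ‖(a q - ((s q : ℚ) : ℚ_[(q : ℕ)])) -
          (((r : ℚ) : ℚ_[(q : ℕ)]) - ((s q : ℚ) : ℚ_[(q : ℕ)]))‖ := by
        congr 1
        ring
    _ ≤ ‖a q - ((s q : ℚ) : ℚ_[(q : ℕ)])‖ +
          ‖((r : ℚ) : ℚ_[(q : ℕ)]) - ((s q : ℚ) : ℚ_[(q : ℕ)])‖ := norm_sub_le _ _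
    _ < δ / 2 + δ / 2 := add_lt_add (hs q) (hr q hq)
    _ = δ := add_halves δ

/-! ### The semi-local algebra, with a fixed primitive element -/

section Fixed

variable (q : ℕ) [Fact q.Prime] (K : Type*) [Field K] [NumberField K]

/-- `exists_poly_of_semiLocal` for a prescribed primitive element, with vanishing of the
coefficients beyond the bound. -/
theorem exists_poly_of_semiLocal_of_primitive {θ : K} (hθ : ℚ⟮θ⟯ = ⊤) (f : semiLocal q K) :
    ∃ (n : ℕ) (c : ℕ → ℚ_[q]), (∀ i, n ≤ i → c i = 0) ∧ ∀ τ : K →+* PadicAlgCl q,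
      (f : (K →+* PadicAlgCl q) → PadicAlgCl q) τ =
        ∑ i ∈ Finset.range n, algebraMap ℚ_[q] (PadicAlgCl q) (c i) * (τ θ) ^ i := by
  classical
  have : Finite (K →+* PadicAlgCl q) := finite_ringHom_padicAlgCl q K
  let _ : Fintype (K →+* PadicAlgCl q) := Fintype.ofFinite _
  have hinj := ringHom_injective_of_primitive q hθ
  set P : (PadicAlgCl q)[X] := Lagrange.interpolate Finset.univ
    (fun τ : K →+* PadicAlgCl q => τ θ)
    (fun τ => (f : (K →+* PadicAlgCl q) → PadicAlgCl q) τ) with hP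
  have hPeval : ∀ τ : K →+* PadicAlgCl q,
      P.eval (τ θ) = (f : (K →+* PadicAlgCl q) → PadicAlgCl q) τ := fun τ =>
    Lagrange.eval_interpolate_at_node _ hinj.injOn (Finset.mem_univ τ)
  have hPinv : ∀ g : PadicAlgCl q ≃ₐ[ℚ_[q]] PadicAlgCl q,
      P.map (g : PadicAlgCl q →+* PadicAlgCl q) = P := by
    intro g
    refine Lagrange.eq_interpolate_of_eval_eq _ hinj.injOn ?_ ?_
    · rw [Polynomial.degree_map]
      exact Lagrange.degree_interpolate_lt _ hinj.injOn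
    · intro τ _
      set τ' : K →+* PadicAlgCl q :=
        ((g.symm : PadicAlgCl q ≃ₐ[ℚ_[q]] PadicAlgCl q) : PadicAlgCl q →+* PadicAlgCl q).comp τ
        with hτ'
      have hτ : τ = (g : PadicAlgCl q →+* PadicAlgCl q).comp τ' := by
        ext x
        simp [hτ']
      have h1 : τ θ = (g : PadicAlgCl q →+* PadicAlgCl q) (τ' θ) := by
        conv_lhs => rw [hτ]
        rfl
      show eval (τ θ) (P.map (g : PadicAlgCl q →+* PadicAlgCl q)) = _
      rw [h1, Polynomial.eval_map, Polynomial.eval₂_at_apply, hPeval]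
      have h2 := f.2 g τ'
      rw [← hτ] at h2
      exact h2.symm
  have hcoeff : ∀ i, P.coeff i ∈ Set.range (algebraMap ℚ_[q] (PadicAlgCl q)) := by
    intro i
    rw [InfiniteGalois.mem_range_algebraMap_iff_fixed]
    intro g
    have := congrArg (fun p : (PadicAlgCl q)[X] => p.coeff i) (hPinv g)
    simpa [Polynomial.coeff_map] using this
  choose c hc using hcoeff
  refine ⟨P.natDegree + 1, c, fun i hi => ?_, fun τ => ?_⟩
  · have h0 : P.coeff i = 0 := Polynomial.coeff_eq_zero_of_natDegree_lt (by omega)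
    rw [← hc i] at h0
    exact (map_eq_zero (algebraMap ℚ_[q] (PadicAlgCl q))).1 h0
  · rw [← hPeval τ, Polynomial.eval_eq_sum_range' (Nat.lt_succ_self _)]
    refine Finset.sum_congr rfl fun i _ => ?_
    rw [hc]

/-- Continuity of `(c_i) ↦ (τ ↦ ∑ c_i (τ θ)^i)` against rational coefficient vectors, uniformly
in the embedding `τ`. -/
theorem exists_delta_of_coeff_near (θ : K) (n : ℕ) {ε : ℝ} (hε : 0 < ε) :
    ∃ δ : ℝ, 0 < δ ∧ ∀ (c : ℕ → ℚ_[q]) (r : ℕ → ℚ),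
      (∀ i, i < n → ‖c i - ((r i : ℚ) : ℚ_[q])‖ < δ) → ∀ τ : K →+* PadicAlgCl q,
        ‖∑ i ∈ Finset.range n, algebraMap ℚ_[q] (PadicAlgCl q) (c i) * (τ θ) ^ i -
          τ (∑ i ∈ Finset.range n, algebraMap ℚ K (r i) * θ ^ i)‖ < ε := by
  classical
  have : Finite (K →+* PadicAlgCl q) := finite_ringHom_padicAlgCl q K
  let _ : Fintype (K →+* PadicAlgCl q) := Fintype.ofFinite _
  set B : ℝ := ∑ τ : K →+* PadicAlgCl q, ∑ i ∈ Finset.range n, ‖τ θ‖ ^ i + 1 with hB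
  have hBpos : 0 < B := by positivity
  have hδ : 0 < ε / B := div_pos hε hBpos
  refine ⟨ε / B, hδ, fun c r hr τ => ?_⟩
  rw [map_sum, ← Finset.sum_sub_distrib]
  have hterm : ∀ i ∈ Finset.range n,
      algebraMap ℚ_[q] (PadicAlgCl q) (c i) * τ θ ^ i - τ (algebraMap ℚ K (r i) * θ ^ i) =
        algebraMap ℚ_[q] (PadicAlgCl q) (c i - (r i : ℚ_[q])) * τ θ ^ i := by
    intro i _
    rw [map_mul, map_pow, map_sub, sub_mul, eq_ratCast, map_ratCast, map_ratCast]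
  rw [Finset.sum_congr rfl hterm]
  calc ‖∑ i ∈ Finset.range n, algebraMap ℚ_[q] (PadicAlgCl q) (c i - (r i : ℚ_[q])) * τ θ ^ i‖
      ≤ ∑ i ∈ Finset.range n,
          ‖algebraMap ℚ_[q] (PadicAlgCl q) (c i - (r i : ℚ_[q])) * τ θ ^ i‖ := norm_sum_le _ _
    _ ≤ ∑ i ∈ Finset.range n, (ε / B) * ‖τ θ‖ ^ i := by
        refine Finset.sum_le_sum fun i hi => ?_
        rw [norm_mul, norm_pow, norm_algebraMap']
        exact mul_le_mul_of_nonneg_right (hr i (Finset.mem_range.1 hi)).le (by positivity)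
    _ = (ε / B) * ∑ i ∈ Finset.range n, ‖τ θ‖ ^ i := by rw [Finset.mul_sum]
    _ ≤ (ε / B) * (B - 1) := by
        refine mul_le_mul_of_nonneg_left ?_ hδ.le
        rw [hB, add_sub_cancel_right]
        exact Finset.single_le_sum (f := fun τ : K →+* PadicAlgCl q =>
          ∑ i ∈ Finset.range n, ‖τ θ‖ ^ i) (fun τ _ => by positivity) (Finset.mem_univ τ)
    _ < (ε / B) * B := by
        apply mul_lt_mul_of_pos_left _ hδ
        linarith
    _ = ε := div_mul_cancel₀ ε hBpos.ne'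

end Fixed

/-! ### Weak approximation at finitely many primes -/

/-- **Weak approximation above a finite set of primes**: a number field `K` is dense in
`∏_{q ∈ T} K ⊗ ℚ_q`, in the embedding model. -/
theorem semiLocalDense_finset (K : Type*) [Field K] [NumberField K] (T : Finset Nat.Primes)
    (f : ∀ q : Nat.Primes, semiLocal (q : ℕ) K) {ε : ℝ} (hε : 0 < ε) :
    ∃ x : K, ∀ q ∈ T, ∀ τ : K →+* PadicAlgCl (q : ℕ),
      ‖((f q : semiLocal (q : ℕ) K) : (K →+* PadicAlgCl (q : ℕ)) → PadicAlgCl (q : ℕ)) τ -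
        τ x‖ < ε := by
  classical
  obtain ⟨θ, hθ⟩ := Field.exists_primitive_element ℚ K
  choose n c hc0 hc using fun q : Nat.Primes =>
    exists_poly_of_semiLocal_of_primitive (q : ℕ) K hθ (f q)
  set N : ℕ := ∑ q ∈ T, n q with hN
  choose δ hδpos hδ using fun q : Nat.Primes => exists_delta_of_coeff_near (q : ℕ) K θ N hε
  obtain ⟨δ₀, hδ₀pos, hδ₀⟩ : ∃ δ₀ : ℝ, 0 < δ₀ ∧ ∀ q ∈ T, δ₀ ≤ δ q := by
    rcases T.eq_empty_or_nonempty with rfl | hT
    · exact ⟨1, one_pos, by simp⟩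
    · exact ⟨T.inf' hT δ, (Finset.lt_inf'_iff hT).2 fun q _ => hδpos q,
        fun q hq => Finset.inf'_le δ hq⟩
  choose r hr using fun i : ℕ => exists_rat_near_padic T (fun q => c q i) hδ₀pos
  refine ⟨∑ i ∈ Finset.range N, algebraMap ℚ K (r i) * θ ^ i, fun q hq τ => ?_⟩
  have hnN : n q ≤ N := Finset.single_le_sum (f := n) (fun _ _ => Nat.zero_le _) hq
  have hfq : ((f q : semiLocal (q : ℕ) K) : (K →+* PadicAlgCl (q : ℕ)) → PadicAlgCl (q : ℕ)) τ =
      ∑ i ∈ Finset.range N, algebraMap ℚ_[(q : ℕ)] (PadicAlgCl (q : ℕ)) (c q i) * (τ θ) ^ i := by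
    rw [hc q τ]
    refine Finset.sum_subset (Finset.range_mono hnN) fun i _ hi => ?_
    rw [hc0 q i (by simpa using hi), map_zero, zero_mul]
  rw [hfq]
  exact hδ q (c q) r (fun i _ => lt_of_lt_of_le (hr i q hq) (hδ₀ q hq)) τ

end Fermat.Agent.S55.H10
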